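/-
Program C (S55), package C8, export B1 (HASSE) — UNCONDITIONAL assembly (helper52, backup of
task 452).

All leaves of helper29's SPEC v2 part 1 are on main; this file only plugs them together:

* `primeHasseStatement p : H29.PrimeHasseStatement p`   (HNT + CYC-LOC + CYC-GLOB, helper37's
  `primeHasse_of`);
* `subCompatStatement`, `quotInfCompatStatement`, `inflCompatStatement` : the three compatibility
  leaves in the `H29` (number field) form, from LINV-INDEP (helper20), C3 (`LeafInvRes`,
  `c3_invInfl`) and helper45 / helper83's layer lemmas;
* `pGroupHasseStatement p : H29.PGroupHasseStatement p`   (A1, helper51);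
* `hassePStatement hp hp2 : H29.HassePStatement H29.NFLayer p`   (A2, helper35) — the Hasse
  principle for the `p`-primary part of `H²(Gal(K/k), Kˣ)` of every Galois layer of number fields.
-/
import Fermat.Agent.S55.H8.HNT
import Fermat.Agent.S55.H16.CycLoc
import Fermat.Agent.S55.H37.CycGlob
import Fermat.Agent.S55.H37.PrimeHasse
import Fermat.Agent.S55.H45.SubTowerCompat
import Fermat.Agent.S55.H69.InvResFinal
import Fermat.Agent.S55.H20.LinvIndep
import Fermat.Agent.S55.H83.LayerCompat
import Fermat.Agent.S55.H94.TowerInfRes
import Fermat.Agent.S55.H94.InflInj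
import Fermat.Agent.S55.H79.SubPres
import Fermat.Agent.S55.H79.QuotPres
import Fermat.Agent.S55.H4.SubResInj
import Fermat.Agent.S55.H51.PGroupHasse
import Fermat.Agent.S55.H35.C8Reduce

set_option autoImplicit false

namespace Fermat.Agent.S55.H52

/-- **(PRIME)**, unconditional: the Hasse principle for Kummer layers of degree `p`. -/
theorem primeHasseStatement (p : ℕ) : H29.PrimeHasseStatement p :=
  H37.primeHasse_of H8.hasseNormStatement H16.cycLocStatement H37.cycGlobStatement p

/-- **(SUB-COMPAT)**, unconditional, in the `H29` form. -/
theorem subCompatStatement : H29.SubCompatStatement := by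
  intro k E K _ _ _ _ _ _ _ _ _ _ _
  exact H45.subTowerCompat k E K (fun q _ => H69.leafInvRes q) (H20.linvIndep k K)

/-- **(QUOT-COMPAT)**, unconditional, in the `H29` form. -/
theorem quotInfCompatStatement : H29.QuotInfCompatStatement := by
  intro k E K _ _ _ _ _ _ _ _ _ _ _ _ _
  exact H83.towerInfCompatStatement k E K (H20.linvIndep k E)

/-- **(INFL-COMPAT)**, unconditional, in the `H29` form. -/
theorem inflCompatStatement : H29.InflCompatStatement := by
  intro k K K' _ _ _ _ _ _ _ _ _ _ _ _
  exact H83.inflCompatStatement k K K' (H20.linvIndep k K)

/-- **(A1)**, unconditional: the Hasse principle for `p`-group layers over fields containing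
`μ_p`. -/
theorem pGroupHasseStatement (p : ℕ) : H29.PGroupHasseStatement p :=
  H51.pGroupHasse_of_leaves p (primeHasseStatement p) subCompatStatement quotInfCompatStatement
    H94.towerInfResStatement H79.subH2InjStatement H79.quotH2InjStatement

/-- **Export B1 (HASSE)**, unconditional: for an odd prime `p`, every Galois layer of number
fields satisfies the Hasse principle on the `p`-primary part of `H²`. -/
theorem hassePStatement {p : ℕ} (hp : p.Prime) (hp2 : p ≠ 2) :
    H29.HassePStatement H29.NFLayer p :=
  H35.hassePStatement_of_leaves hp hp2 (pGroupHasseStatement p) inflCompatStatement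
    H94.inflInjStatement subCompatStatement H79.subH2InjStatement H4.subResInjStatement

end Fermat.Agent.S55.H52
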