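/-
Program C (S55), package C8, export B4: leaf (J-ADM) of helper29's `H29/C8Cls.lean`
(task 565, helper52).

`jAdmStatement : H29.JAdmStatement` VERBATIM — the local invariant at `v` of a class of
`H²(Gal(K/k), J_K)` is killed by the local degree `[K_w : k_v]`.

Proof: `jinv k K v = H66.inv ∘ (a map into H²(Gal(K_w/k_v), K_wˣ))`, and that group is killed by
`#Gal(K_w/k_v) = [K_w : k_v]` (`H80.card_smul_eq_zero`, `IsGalois.card_aut_eq_finrank`).
-/
import Fermat.Agent.S55.H29.C8Cls
import Fermat.Agent.S55.H16.CycLoc

set_option autoImplicit false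

open CategoryTheory groupCohomology

namespace Fermat.Agent.S55.H52

open Fermat.Agent.S55.H88 Fermat.Agent.S55.H66 Fermat.Agent.S55.H29

/-- The local invariant of a class of `H²(Gal(K_w/k_v), K_wˣ)` is killed by the local degree
(any embedding `τ'` of `K`). -/
theorem finrank_smul_inv_eq_zero (q : ℕ) [Fact q.Prime] (k K : Type) [Field k] [NumberField k]
    [Field K] [NumberField K] [Algebra k K] [IsGalois k K] (τ' : K →+* PadicAlgCl q)
    (x : groupCohomology (Rep.ofAlgebraAutOnUnits (locBase q k τ') (locExt q k τ')) 2) :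
    Module.finrank (locBase q k τ') (locExt q k τ') • H66.inv q (locExt q k τ') x = 0 := by
  haveI := H16.finiteDimensional_locExt' q k K τ'
  haveI := H16.isGalois_locExt' q k K τ'
  rw [← map_nsmul]
  have h := H80.card_smul_eq_zero
    (Rep.ofAlgebraAutOnUnits (locBase q k τ') (locExt q k τ')) 2 (Or.inr rfl) x
  rw [IsGalois.card_aut_eq_finrank] at h
  rw [h, map_zero]

attribute [local instance] factOfPrimes

/-- The idele invariant at any embedding is killed by the local degree. -/
theorem finrank_smul_jinvAt_eq_zero (k K : Type) [Field k] [NumberField k]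
    [Field K] [NumberField K] [Algebra k K] [IsGalois k K] (q : Nat.Primes)
    (τ' : K →+* PadicAlgCl (q : ℕ)) (y : groupCohomology (ideleRep k K) 2) :
    Module.finrank (locBase (q : ℕ) k τ') (locExt (q : ℕ) k τ') • jinvAt k q τ' y = 0 :=
  finrank_smul_inv_eq_zero (q : ℕ) k K τ'
    ((groupCohomology.map (locGalToGlobal (q : ℕ) k τ') (ideleToLoc k q τ') 2).hom y)

/-- **Leaf (J-ADM)**, `H29.JAdmStatement` verbatim. -/
theorem jAdmStatement : H29.JAdmStatement := by
  intro k K _ _ _ _ _ _ y v
  exact finrank_smul_jinvAt_eq_zero k K v.1 (v.ext K) y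

end Fermat.Agent.S55.H52
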