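/-
S55 / Program C, package C8 (helper52): the Kummer input of the PRIME assembly
(`H29.PrimeHasseStatement`): a Galois layer `K/k` of prime degree `p` over a field `k ∋ ζ_p` is
`k(β)` with `β ^ p = g ∈ kˣ`, `g` not a `p`-th power, and its Galois group is generated by one
element.  Mathlib only (`exists_root_adjoin_eq_top_of_isCyclic`).
-/
import Mathlib
import Fermat.Agent.S55.H8.KummerDefs

set_option autoImplicit false

open IntermediateField

namespace Fermat.Agent.S55.H52

open Fermat.Agent.S55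

/-- A `p`-th root of unity of `K` lies in `k` when `k` contains a primitive `p`-th root of
unity. -/
theorem mem_range_of_pow_eq_one {k K : Type*} [Field k] [Field K] [Algebra k K] {p : ℕ}
    (hp : 0 < p) {ζ : k} (hζ : IsPrimitiveRoot ζ p) {η : K} (hη : η ^ p = 1) :
    η ∈ Set.range (algebraMap k K) := by
  have hζ' : IsPrimitiveRoot (algebraMap k K ζ) p :=
    hζ.map_of_injective (algebraMap k K).injective
  have : NeZero p := ⟨hp.ne'⟩
  obtain ⟨i, -, hi⟩ := hζ'.eq_pow_of_pow_eq_one hη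
  exact ⟨ζ ^ i, by rw [map_pow, hi]⟩

/-- **Kummer input of the prime layers**: a Galois extension `K/k` of prime degree `p`, with
`ζ_p ∈ k`, is generated by a `p`-th root `β` of an element `g ∈ kˣ` which is not a `p`-th power,
`k⟮β⟯ = ⊤`, and `Gal(K/k)` is generated by one element `σ`. -/
theorem exists_kummer_generator (k K : Type*) [Field k] [Field K] [Algebra k K] [IsGalois k K]
    [FiniteDimensional k K] (p : ℕ) (hp : p.Prime) (hζ : ∃ ζ : k, IsPrimitiveRoot ζ p)
    (hdeg : Module.finrank k K = p) :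
    ∃ (g : kˣ) (β : K) (σ : K ≃ₐ[k] K), g ∉ H8.pPow p kˣ ∧ β ^ p = algebraMap k K g ∧
      k⟮β⟯ = ⊤ ∧ ∀ τ : K ≃ₐ[k] K, τ ∈ Subgroup.zpowers σ := by
  obtain ⟨ζ, hζ⟩ := hζ
  have : Fact p.Prime := ⟨hp⟩
  have hcard : Nat.card (K ≃ₐ[k] K) = p := by
    rw [IsGalois.card_aut_eq_finrank, hdeg]
  have : IsCyclic (K ≃ₐ[k] K) := isCyclic_of_prime_card hcard
  obtain ⟨σ, hσ⟩ := IsCyclic.exists_generator (α := K ≃ₐ[k] K)
  have hprim : (primitiveRoots (Module.finrank k K) k).Nonempty := by
    rw [hdeg]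
    exact ⟨ζ, (mem_primitiveRoots hp.pos).mpr hζ⟩
  obtain ⟨β, ⟨a, ha⟩, hβ⟩ := exists_root_adjoin_eq_top_of_isCyclic k K hprim
  rw [hdeg] at ha
  -- `β ∉ k`
  have hβk : β ∉ Set.range (algebraMap k K) := by
    intro hmem
    have h1 : k⟮β⟯ = ⊥ := by
      rw [IntermediateField.adjoin_simple_eq_bot_iff, IntermediateField.mem_bot]
      exact hmem
    rw [h1] at hβ
    have h2 : Module.finrank k K = 1 := by
      have := IntermediateField.finrank_bot (F := k) (E := K)
      rw [← IntermediateField.finrank_top', ← hβ]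
      exact this
    rw [hdeg] at h2
    exact hp.one_lt.ne' h2
  have hβ0 : β ≠ 0 := fun h0 => hβk ⟨0, by rw [map_zero, h0]⟩
  have ha0 : a ≠ 0 := by
    rintro rfl
    rw [map_zero] at ha
    exact hβ0 (pow_eq_zero_iff hp.ne_zero |>.mp ha.symm)
  refine ⟨Units.mk0 a ha0, β, σ, ?_, ?_, hβ, hσ⟩
  · rintro ⟨h, hh⟩
    -- `g = h ^ p`, so `β / h` is a `p`-th root of unity
    have hh' : (h : k) ^ p = a := by
      have := congrArg (fun u : kˣ => (u : k)) hh
      simpa using this
    have hh0 : algebraMap k K (h : k) ≠ 0 := by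
      rw [map_ne_zero]
      exact h.ne_zero
    have h1 : (β / algebraMap k K (h : k)) ^ p = 1 := by
      rw [div_pow, ← map_pow, hh', ha, div_self (pow_ne_zero _ hβ0)]
    obtain ⟨c, hc⟩ := mem_range_of_pow_eq_one hp.pos hζ h1
    apply hβk
    refine ⟨c * h, ?_⟩
    rw [map_mul, hc, div_mul_cancel₀ _ hh0]
  · exact ha.symm ▸ rfl

end Fermat.Agent.S55.H52
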