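/-
Program C (S55), package C8, leaf EX-FULLPLACE (task 475, helper52).

`fullPlaceStatement : H29.FullPlaceStatement` — a cyclic layer `K / k` of number fields of
`p`-power degree has a finite place `v` of `k` with full local degree `[K_w : k_v] = [K : k]`.

Assembly of `H81.exists_finPlace_decompGroup_eq_top` (a finite place with full decomposition
group, from Frobenius density) and `H20.card_decompGroup` (`#D_w = [K_w : k_v]`).
-/
import Fermat.Agent.S55.H29.C8Ex
import Fermat.Agent.S55.H81.FullPlaceFin
import Fermat.Agent.S55.H20.Decomp

set_option autoImplicit false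

open Module

namespace Fermat.Agent.S55.H52

open Fermat.Agent.S55.H88

attribute [local instance] factOfPrimes

/-- The local degree of the layer `K / k` at `v` is the order of the decomposition group of the
chosen place above `v`. -/
theorem locDegAt_eq_card_decompGroup (k K : Type) [Field k] [Field K] [Algebra k K]
    [FiniteDimensional k K] [Normal k K] (v : FinPlace k) :
    H29.locDegAt k K v = Nat.card (decompGroup (v.1 : ℕ) k (v.ext K)) :=
  (H20.card_decompGroup (v.1 : ℕ) k (v.ext K)).symm

/-- **Leaf (FULL-PLACE)**, `H29.FullPlaceStatement` verbatim: a cyclic layer of `p`-power degree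
has a finite place of full local degree. -/
theorem fullPlaceStatement : H29.FullPlaceStatement := by
  intro k K _ _ _ _ _ _ _ p hp hdeg
  obtain ⟨n, hn⟩ := hdeg
  have hcard : Nat.card (K ≃ₐ[k] K) = p ^ n := by
    rw [IsGalois.card_aut_eq_finrank, hn]
  obtain ⟨v, -, hv⟩ := H81.exists_finPlace_decompGroup_eq_top k K hp hcard 0
  refine ⟨v, ?_⟩
  rw [locDegAt_eq_card_decompGroup, hv, Subgroup.card_top, IsGalois.card_aut_eq_finrank]

end Fermat.Agent.S55.H52
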