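/-
Program C (S55), package C8, exports B2 (REC) and B3 (EX) — assembly of everything that is
unconditional on main (helper52).

The only hypotheses left are the four leaves that are still being proved:
(LOCSYM) `H29.KummerLocalSymbolStatement`, (REC-CYCLO) `H29.CycloRecStatement p`,
(REC-EXISTS) `H29.CycloLayerExistsStatement p`, (LINV-CONJ) `H29.LinvConjStatement`.

* `recStatement_of_open`      : reciprocity `H29.RecStatement H29.NFLayer p` from REC-CYCLO and
  REC-EXISTS;
* `primeExStatement_of_open`  : `H29.PrimeExStatement p` from LOCSYM, REC-CYCLO, REC-EXISTS;
* `cyclicExStatement_of_open` : the export `H29.CyclicExStatement p` from the four leaves.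
-/
import Fermat.Agent.S55.H52.C8HasseFinal
import Fermat.Agent.S55.H52.FullPlace
import Fermat.Agent.S55.H94.RecAsm
import Fermat.Agent.S55.H94.Compositum
import Fermat.Agent.S55.H28.LinvFinStatement
import Fermat.Agent.S55.H79.LocDeg
import Fermat.Agent.S55.H79.SumLocDeg
import Fermat.Agent.S55.H55.PresSurj
import Fermat.Agent.S55.H8.UnitNorm
import Fermat.Agent.S55.H50.ExPrime
import Fermat.Agent.S55.H4.ResLift
import Fermat.Agent.S55.H35.C8ExCyclic

set_option autoImplicit false

namespace Fermat.Agent.S55.H52

/-- **Export B2 (REC)** from the two cyclotomic leaves: the sum of the local invariants of a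
`p`-primary class of any Galois layer of number fields vanishes. -/
theorem recStatement_of_open {p : ℕ} (hp : p.Prime) (hp2 : p ≠ 2)
    (hCR : H29.CycloRecStatement p) (hCE : H29.CycloLayerExistsStatement p) :
    H29.RecStatement H29.NFLayer p :=
  H94.recStatement_of_leaves hp hp2 (hassePStatement hp hp2) hCR hCE H94.compositumStatement
    H28.linvFinStatement inflCompatStatement subCompatStatement quotInfCompatStatement
    H94.towerInfResStatement H79.subH2InjStatement H79.locDegQuotStatement

/-- **(EX-PRIME)** from the local symbols and the two cyclotomic leaves. -/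
theorem primeExStatement_of_open {p : ℕ} (hp : p.Prime) (hp2 : p ≠ 2)
    (hLS : H29.KummerLocalSymbolStatement)
    (hCR : H29.CycloRecStatement p) (hCE : H29.CycloLayerExistsStatement p) :
    H29.PrimeExStatement p :=
  H50.primeExStatement_of_leaves p hLS H8.unitNormStatement fullPlaceStatement
    (recStatement_of_open hp hp2 hCR hCE)

/-- **Export B3 (EX)** from the four leaves still open: existence of classes with prescribed
local invariants in cyclic layers of `p`-power degree over fields containing `μ_p`. -/
theorem cyclicExStatement_of_open (p : ℕ)
    (hLS : H29.KummerLocalSymbolStatement)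
    (hCR : H29.CycloRecStatement p) (hCE : H29.CycloLayerExistsStatement p)
    (hLC : H29.LinvConjStatement) : H29.CyclicExStatement p := fun hp hp2 =>
  H35.cyclicExStatement_of_leaves (primeExStatement_of_open hp hp2 hLS hCR hCE)
    (H4.cyclicResLift p (pGroupHasseStatement p) hLC H79.subH2InjStatement)
    subCompatStatement quotInfCompatStatement H79.locDegMulStatement H79.locDegQuotStatement
    H79.belowStatement H79.sumLocDegStatement H28.linvFinStatement H55.subH2SurjStatement
    H55.quotH2SurjStatement (recStatement_of_open hp hp2 hCR hCE) hp hp2

end Fermat.Agent.S55.H52
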