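/-
Program C (S55), package C8 — exports B2 (REC) and B3 (EX), UNCONDITIONAL (helper52).

All leaves of helper29's SPEC v2 parts 2 / 2b are on main.  With `H52.C8HasseFinal` (B1) and
`H52.C8ExFinal` (the assembly from the four leaves that were open at the time), the last four are
plugged in here:

* (REC-CYCLO)  `H6.cycloRecStatement`           (helper6, helper5, helper85, helper16, helper18);
* (REC-EXISTS) `H51.cycloLayerExists`           (helper51; also `H38.cycloLayerExists`);
* (LOCSYM)     `H85.kummerLocalSymbolStatement` (helper85);
* (LINV-CONJ)  `H76.linvConjStatement`          (helper76).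

Results: `recStatement`, `primeExStatement`, `cyclicExStatement`.
-/
import Fermat.Agent.S55.H52.C8ExFinal
import Fermat.Agent.S55.H6.RecCycloFinal
import Fermat.Agent.S55.H51.CycloExists
import Fermat.Agent.S55.H85.LocSym
import Fermat.Agent.S55.H76.LinvConjFinal

set_option autoImplicit false

namespace Fermat.Agent.S55.H52

/-- **Export B2 (REC)**, unconditional: for an odd prime `p`, the local invariants of a
`p`-primary class of `H²(Gal(K/k), Kˣ)` of any Galois layer of number fields sum to `0`. -/
theorem recStatement {p : ℕ} (hp : p.Prime) (hp2 : p ≠ 2) :
    H29.RecStatement H29.NFLayer p :=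
  recStatement_of_open hp hp2 (H6.cycloRecStatement p) (H51.cycloLayerExists p)

/-- **(EX-PRIME)**, unconditional: existence for Kummer layers of degree `p`. -/
theorem primeExStatement (p : ℕ) : H29.PrimeExStatement p := fun hp hp2 =>
  primeExStatement_of_open hp hp2 H85.kummerLocalSymbolStatement (H6.cycloRecStatement p)
    (H51.cycloLayerExists p) hp hp2

/-- **Export B3 (EX)**, unconditional: in a cyclic layer of `p`-power degree over a field
containing `μ_p` (`p` odd), every finitely supported family of local invariants killed by the
local degrees and of sum `0` is the family of invariants of a global class. -/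
theorem cyclicExStatement (p : ℕ) : H29.CyclicExStatement p :=
  cyclicExStatement_of_open p H85.kummerLocalSymbolStatement (H6.cycloRecStatement p)
    (H51.cycloLayerExists p) H76.linvConjStatement

end Fermat.Agent.S55.H52
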