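/-
Program C (S55), package C8, reciprocity in cyclic cyclotomic layers: leaf (R-UNR) of helper6's
spec `H6/RecCycloSpec.lean` (task 541, helper52).

`unrFormulaStatement : H6.UnrFormulaStatement` VERBATIM — the unramified formula
`linv_{τ'} (cycClass σ a) = i · ord_v(a) / #⟨σ⟩` when the Frobenius at `τ'` maps to `σ ^ i`.

It is helper18's `H18.linvAt_cycClass_of_unram` (`= ord_v(a) • chi σ (Frob)`) with the character
evaluated by `H18.chi_pow`.
-/
import Fermat.Agent.S55.H6.RecCycloSpec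
import Fermat.Agent.S55.H18.CycLocal

set_option autoImplicit false

namespace Fermat.Agent.S55.H52

open Fermat.Agent.S55.H88 Fermat.Agent.S55.H66

/-- `z • (i / n) = (i · z) / n` in `ℚ/ℤ`. -/
theorem zsmul_coe_div_QZ (z : ℤ) (i n : ℕ) :
    z • (((i : ℚ) / (n : ℚ) : ℚ) : QZ) = (((((i : ℤ) * z : ℤ) : ℚ) / (n : ℚ) : ℚ) : QZ) := by
  rw [← AddCircle.coe_zsmul]
  congr 1
  rw [zsmul_eq_mul]
  push_cast
  ring

/-- **(R-UNR)**, `H6.UnrFormulaStatement` verbatim. -/
theorem unrFormulaStatement : H6.UnrFormulaStatement := by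
  intro k E _ _ _ _ _ _ σ hσ q _ τ' hunr φ hφ i hi a
  have h := H18.linvAt_cycClass_of_unram k τ' σ hσ a hunr φ hφ
  have hloc : ((H18.locUnit k τ' a : (locBase q k τ')ˣ) : locBase q k τ')
      = locEmb q (τ'.comp (algebraMap k E)) (a : k) := rfl
  rw [h, hi, H18.chi_pow σ (orderOf_pos σ) i, hloc]
  exact zsmul_coe_div_QZ _ i (orderOf σ)

end Fermat.Agent.S55.H52
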