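/-
Program C (S55), package C9b, leaf (HL-b) UNIF of helper56's split of `H70.LamStatement`
(task 548, helper52).

For `K ⊆ Qbar` unramified outside `S` (Prelude sense), `q ∉ S` and any embedding
`τ : K →+* PadicAlgCl q`, the completion `ℚ_q(τ K) = H88.locField q τ` has uniformiser `q`:

  `unifNrm_locField_eq : H66.unifNrm q (H88.locField q τ) = (q : ℝ)⁻¹`.

Proof: by helper20's (UNR-BRIDGE) every element of `locField q τ` has the norm of an element of
`ℚ_q`, i.e. an integral power of `‖q‖ = q⁻¹`; conclude with `H66.unifNrm_eq` for `π := q`.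
-/
import Fermat.Agent.S55.H20.UnrBridge
import Fermat.Agent.S55.H66.LocalBridge
import Fermat.Agent.S55.H88.LayerDefs

set_option autoImplicit false

namespace Fermat.Agent.S55.H52

open Fermat.Agent.S55.H66

/-- **Local core.**  If every element of the subfield `E ⊆ Ω` has the norm of an element of
`ℚ_q`, then `q` is a uniformiser of `E`: `unifNrm q E = q⁻¹`. -/
theorem unifNrm_eq_inv_of_norm_mem_base (q : ℕ) [Fact q.Prime]
    (E : IntermediateField ℚ_[q] (PadicAlgCl q))
    (h : ∀ x ∈ E, ∃ y : ℚ_[q], ‖x‖ = ‖algebraMap ℚ_[q] (PadicAlgCl q) y‖) :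
    unifNrm q E = (q : ℝ)⁻¹ := by
  have hq1 : (1 : ℝ) < q := by exact_mod_cast (Fact.out : q.Prime).one_lt
  have hq0 : (0 : ℝ) < q := by linarith
  have hnq : nrm q ((q : ℕ) : E) = (q : ℝ)⁻¹ := by
    show ‖algebraMap E (PadicAlgCl q) ((q : ℕ) : E)‖ = _
    rw [map_natCast]
    have h1 : ((q : ℕ) : PadicAlgCl q) = algebraMap ℚ_[q] (PadicAlgCl q) ((q : ℕ) : ℚ_[q]) := by
      simp
    rw [h1, PadicAlgCl.norm_extends, Padic.norm_p]
  rw [← hnq]
  refine unifNrm_eq q E ((q : ℕ) : E) ?_ ?_ ?_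
  · intro h0
    rw [h0] at hnq
    have h2 : nrm q (0 : E) = 0 := by
      show ‖algebraMap E (PadicAlgCl q) (0 : E)‖ = 0
      rw [map_zero, norm_zero]
    rw [h2] at hnq
    have : (0 : ℝ) < (q : ℝ)⁻¹ := inv_pos.2 hq0
    linarith
  · rw [hnq]
    exact inv_lt_one_of_one_lt₀ hq1
  · intro x hx
    obtain ⟨y, hy⟩ := h (x : PadicAlgCl q) x.2
    have hx' : (x : PadicAlgCl q) ≠ 0 := fun h0 => hx (Subtype.ext h0)
    have hy0 : y ≠ 0 := by
      rintro rfl
      rw [map_zero, norm_zero, norm_eq_zero] at hy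
      exact hx' hy
    refine ⟨y.valuation, ?_⟩
    show ‖(x : PadicAlgCl q)‖ = _
    rw [hnq, hy, PadicAlgCl.norm_extends, Padic.norm_eq_zpow_neg_valuation hy0, inv_zpow,
      zpow_neg]

/-- **(HL-b) UNIF**, general prime: for `K` unramified outside `S`, `q ∉ S` and an embedding
`τ : K →+* PadicAlgCl q`, the uniformiser norm of the completion `ℚ_q(τ K)` is `q⁻¹`. -/
theorem unifNrm_locField_eq_of_isUnramifiedOutside (S : Finset Nat.Primes)
    (K : IntermediateField ℚ (AlgebraicClosure ℚ)) (hK : K.IsUnramifiedOutside S)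
    (q : ℕ) [Fact q.Prime] (hq : ∀ q' : Nat.Primes, (q' : ℕ) = q → q' ∉ S)
    (τ : K →+* PadicAlgCl q) :
    unifNrm q (H88.locField q τ) = (q : ℝ)⁻¹ :=
  unifNrm_eq_inv_of_norm_mem_base q (H88.locField q τ) fun x hx =>
    H20.norm_mem_base_of_isUnramifiedOutside S K hK q hq τ x hx

attribute [local instance] H88.factOfPrimes

/-- **(HL-b) UNIF**, in the shape of helper56's `#2922`: the prime as an element of
`Nat.Primes` (the shape of `H88.FinPlace`). -/
theorem unifNrm_locField_eq (S : Finset Nat.Primes)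
    (K : IntermediateField ℚ (AlgebraicClosure ℚ)) (hK : K.IsUnramifiedOutside S)
    (q : Nat.Primes) (hq : q ∉ S) (τ : K →+* PadicAlgCl (q : ℕ)) :
    unifNrm (q : ℕ) (H88.locField (q : ℕ) τ) = ((q : ℕ) : ℝ)⁻¹ := by
  refine unifNrm_locField_eq_of_isUnramifiedOutside S K hK (q : ℕ) (fun q' h => ?_) τ
  have : q' = q := Subtype.ext h
  rw [this]
  exact hq

/-- The same for the base completion `H88.locBase q k τ'` of a layer `K' / k` with base
`k ⊆ Qbar` unramified outside `S` (the form consumed by (HL-e)). -/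
theorem unifNrm_locBase_eq (S : Finset Nat.Primes)
    (k : IntermediateField ℚ (AlgebraicClosure ℚ)) (hk : k.IsUnramifiedOutside S)
    (q : Nat.Primes) (hq : q ∉ S) {K' : Type} [Field K'] [Algebra k K']
    (τ' : K' →+* PadicAlgCl (q : ℕ)) :
    unifNrm (q : ℕ) (H88.locBase (q : ℕ) k τ') = ((q : ℕ) : ℝ)⁻¹ :=
  unifNrm_locField_eq S k hk q hq (τ'.comp (algebraMap k K'))

end Fermat.Agent.S55.H52
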